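import Mathlib

/-!
# Division of holomorphic functions on the upper half plane

`Fermat.Agent.S48.Conj` (Deligne–Serre, brick C, weight-one half).

If `G₁, G₂, Θ` are holomorphic on `ℍ`, `Θ` is not identically zero and `G₁ ^ 2 = G₂ * Θ ^ 2`,
then `G₁ / Θ` extends to a holomorphic function `h` on `ℍ` with `h * Θ = G₁` (and `h ^ 2 = G₂`):
off the isolated zeros of `Θ` the quotient satisfies `(G₁ / Θ) ^ 2 = G₂`, so it is locally
bounded and Riemann's removable singularity theorem applies.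
-/

set_option autoImplicit false

open UpperHalfPlane Filter Topology Function
open scoped Manifold

namespace Fermat.Agent.S48.Conj

theorem analyticOnNhd_comp_ofComplex {F : ℍ → ℂ} (hF : MDiff F) :
    AnalyticOnNhd ℂ (F ∘ ofComplex) {z : ℂ | 0 < z.im} :=
  (UpperHalfPlane.mdifferentiable_iff.mp hF).analyticOnNhd isOpen_upperHalfPlaneSet

theorem isPreconnected_upperSet : IsPreconnected {z : ℂ | 0 < z.im} :=
  (convex_halfSpace_im_gt 0).isPreconnected

/-- Cancellation: holomorphic functions on `ℍ` form an integral domain. -/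
theorem eq_of_mul_eq_mul {a b Θ : ℍ → ℂ} (ha : MDiff a) (hb : MDiff b) (hΘ : MDiff Θ)
    (hne : ∃ z, Θ z ≠ 0) (h : a * Θ = b * Θ) : a = b := by
  have h1 := (analyticOnNhd_comp_ofComplex (ha.sub hb)).eq_zero_or_eq_zero_of_mul_eq_zero
    (analyticOnNhd_comp_ofComplex hΘ) (fun z _ => by
      have := congrFun h (ofComplex z)
      simp only [Pi.mul_apply] at this
      simp only [comp_apply, Pi.sub_apply, sub_mul, this, sub_self]) isPreconnected_upperSet
  rcases h1 with h1 | h1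
  · ext z
    have := h1 z z.im_pos
    simpa [sub_eq_zero] using this
  · obtain ⟨z, hz⟩ := hne
    exact absurd (by simpa using h1 z z.im_pos) hz

/-- Division: if `G₁ ^ 2 = G₂ * Θ ^ 2` with all three holomorphic and `Θ ≢ 0`, then `Θ` divides
`G₁` in the ring of holomorphic functions on `ℍ`. -/
theorem exists_mdiff_div {G₁ G₂ Θ : ℍ → ℂ} (h1 : MDiff G₁) (h2 : MDiff G₂) (hΘ : MDiff Θ)
    (hne : ∃ z, Θ z ≠ 0) (hsq : G₁ ^ 2 = G₂ * Θ ^ 2) :
    ∃ h : ℍ → ℂ, MDiff h ∧ h * Θ = G₁ := by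
  classical
  set U : Set ℂ := {z : ℂ | 0 < z.im} with hU
  have hUo : IsOpen U := isOpen_upperHalfPlaneSet
  set g₁ : ℂ → ℂ := G₁ ∘ ofComplex with hg₁
  set g₂ : ℂ → ℂ := G₂ ∘ ofComplex with hg₂
  set θ : ℂ → ℂ := Θ ∘ ofComplex with hθ
  have hg₁d : DifferentiableOn ℂ g₁ U := UpperHalfPlane.mdifferentiable_iff.mp h1
  have hg₂d : DifferentiableOn ℂ g₂ U := UpperHalfPlane.mdifferentiable_iff.mp h2
  have hθd : DifferentiableOn ℂ θ U := UpperHalfPlane.mdifferentiable_iff.mp hΘ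
  have hθA : AnalyticOnNhd ℂ θ U := analyticOnNhd_comp_ofComplex hΘ
  have hsq' : ∀ w, g₁ w ^ 2 = g₂ w * θ w ^ 2 := fun w => by
    have := congrFun hsq (ofComplex w)
    simpa [hg₁, hg₂, hθ] using this
  set q : ℂ → ℂ := fun w => g₁ w / θ w with hq
  set H : ℂ → ℂ := fun w => limUnder (𝓝[≠] w) q with hH
  -- the zeros of `θ` in `U` are isolated
  have hiso : ∀ w ∈ U, ∀ᶠ v in 𝓝[≠] w, θ v ≠ 0 := by
    intro w hw
    by_contra hcon
    have hfreq : ∃ᶠ v in 𝓝[≠] w, θ v = 0 := by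
      simpa [Filter.not_eventually] using hcon
    have h0 := hθA.eqOn_zero_of_preconnected_of_frequently_eq_zero isPreconnected_upperSet hw hfreq
    obtain ⟨z, hz⟩ := hne
    exact hz (by simpa [hθ] using h0 z.im_pos)
  -- away from the zeros, `H = q`
  have hHq : ∀ v ∈ U, θ v ≠ 0 → H v = q v := by
    intro v hv hθv
    have hcont : ContinuousAt q v :=
      ((hg₁d.differentiableAt (hUo.mem_nhds hv)).continuousAt).div
        ((hθd.differentiableAt (hUo.mem_nhds hv)).continuousAt) hθv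
    exact (hcont.tendsto.mono_left nhdsWithin_le_nhds).limUnder_eq
  have hqsq : ∀ v, θ v ≠ 0 → q v ^ 2 = g₂ v := by
    intro v hθv
    simp only [hq, div_pow, hsq' v]
    field_simp
  -- `H` is differentiable at every point of `U`
  have hHd : ∀ w ∈ U, DifferentiableAt ℂ H w := by
    intro w hw
    have hcg₂ : ContinuousAt g₂ w := (hg₂d.differentiableAt (hUo.mem_nhds hw)).continuousAt
    have hev1 : ∀ᶠ v in 𝓝 w, v ∈ U := hUo.mem_nhds hw
    have hev2 : ∀ᶠ v in 𝓝 w, v ≠ w → θ v ≠ 0 := by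
      have := hiso w hw
      rw [eventually_nhdsWithin_iff] at this
      filter_upwards [this] with v hv hvw using hv hvw
    have hev3 : ∀ᶠ v in 𝓝 w, ‖g₂ v‖ < ‖g₂ w‖ + 1 :=
      hcg₂.norm.eventually_lt continuousAt_const (by simp)
    set s : Set ℂ := {v | v ∈ U ∧ (v ≠ w → θ v ≠ 0) ∧ ‖g₂ v‖ < ‖g₂ w‖ + 1} with hs
    have hs_nhds : s ∈ 𝓝 w := by
      filter_upwards [hev1, hev2, hev3] with v a b c using ⟨a, b, c⟩
    have hd : DifferentiableOn ℂ q (s \ {w}) := by
      rintro v ⟨⟨hvU, hvθ, -⟩, hvw⟩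
      exact ((hg₁d.differentiableAt (hUo.mem_nhds hvU)).div
        (hθd.differentiableAt (hUo.mem_nhds hvU)) (hvθ hvw)).differentiableWithinAt
    have hb : BddAbove (norm ∘ q '' (s \ {w})) := by
      refine ⟨‖g₂ w‖ + 2, ?_⟩
      rintro _ ⟨v, ⟨⟨-, hvθ, hvb⟩, hvw⟩, rfl⟩
      have hq2 : ‖q v‖ ^ 2 = ‖g₂ v‖ := by
        rw [← norm_pow, hqsq v (hvθ hvw)]
      have h0 : 0 ≤ ‖q v‖ := norm_nonneg _
      have h0' : 0 ≤ ‖g₂ w‖ := norm_nonneg _
      simp only [comp_apply]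
      nlinarith
    have hupd := Complex.differentiableOn_update_limUnder_of_bddAbove hs_nhds hd hb
    have heq : H =ᶠ[𝓝 w] update q w (limUnder (𝓝[≠] w) q) := by
      filter_upwards [hs_nhds] with v hv
      by_cases hvw : v = w
      · subst hvw
        simp [hH]
      · rw [update_of_ne hvw]
        exact hHq v hv.1 (hv.2.1 hvw)
    exact (hupd.differentiableAt hs_nhds).congr_of_eventuallyEq heq
  -- the product formula on `U`
  have hHθ : ∀ v ∈ U, H v * θ v = g₁ v := by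
    intro v hv
    by_cases hθv : θ v = 0
    · have : g₁ v ^ 2 = 0 := by rw [hsq' v, hθv]; ring
      rw [hθv, mul_zero, eq_comm]
      exact pow_eq_zero_iff (two_ne_zero) |>.mp this
    · rw [hHq v hv hθv, hq]
      field_simp
  refine ⟨fun z : ℍ => H (z : ℂ), ?_, ?_⟩
  · rw [UpperHalfPlane.mdifferentiable_iff]
    intro w hw
    have heq : ((fun z : ℍ => H (z : ℂ)) ∘ ofComplex) =ᶠ[𝓝 w] H := by
      filter_upwards [hUo.mem_nhds hw] with v hv
      simp only [comp_apply]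
      rw [ofComplex_apply_of_im_pos hv]
    exact ((hHd w hw).congr_of_eventuallyEq heq).differentiableWithinAt
  · ext z
    have := hHθ (z : ℂ) z.im_pos
    simpa [hg₁, hθ] using this

/-- Under the hypotheses of `exists_mdiff_div`, the quotient squares to `G₂`. -/
theorem sq_eq_of_mul_eq {G₁ G₂ Θ h : ℍ → ℂ} (h2 : MDiff G₂) (hΘ : MDiff Θ) (hh : MDiff h)
    (hne : ∃ z, Θ z ≠ 0) (hsq : G₁ ^ 2 = G₂ * Θ ^ 2) (hmul : h * Θ = G₁) : h ^ 2 = G₂ := by
  have hΘ2 : MDiff (Θ ^ 2) := by rw [pow_two]; exact hΘ.mul hΘ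
  have hh2 : MDiff (h ^ 2) := by rw [pow_two]; exact hh.mul hh
  refine eq_of_mul_eq_mul hh2 h2 hΘ2 ?_ ?_
  · obtain ⟨z, hz⟩ := hne
    exact ⟨z, by simpa using hz⟩
  · rw [← hsq, ← hmul, mul_pow]

end Fermat.Agent.S48.Conj
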