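import Mathlib

/-!
# The weight-one theta series `Θ(z) = θ(2z)²` on `Γ₁(4)`

`Fermat.Agent.S48.Conj` (Deligne–Serre, brick C, weight-one half).

`thetaFun z = jacobiTheta (2 z) ^ 2 = (∑ q^{n²})² = 1 + 4q + 4q² + …`.  We prove
* the weight-one transformation law under `T = [[1,1],[0,1]]` and `[[1,0],[-4,1]]`
  (from Mathlib's `jacobiTheta_two_add` and `jacobiTheta_S_smul`), hence under all of `Γ₁(4)`
  (Euclidean descent, `gamma1_four_le`);
* the global bound `‖Θ z‖ ≤ 9 (1 + 1 / im z)`, hence boundedness at every cusp;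
* `thetaForm M h4 : ModularForm (Gamma1 M) 1` for `4 ∣ M`;
* the `q`-expansion of `Θ` is the image of an integral power series with constant term `1`.
-/

set_option autoImplicit false

open UpperHalfPlane Filter Topology Complex CongruenceSubgroup Matrix
open scoped Manifold MatrixGroups ModularForm Real

namespace Fermat.Agent.S48.Conj

/-! ### Functional equations on `ℂ` -/

/-- The square of the `S`-law of `jacobiTheta`, as an identity on `ℂ`. -/
theorem jacobiTheta_sq_neg_inv (τ : ℂ) (hτ : 0 < τ.im) :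
    jacobiTheta (-τ⁻¹) ^ 2 = (-Complex.I * τ) * jacobiTheta τ ^ 2 := by
  have h := jacobiTheta_S_smul ⟨τ, hτ⟩
  have hS : ((ModularGroup.S • (⟨τ, hτ⟩ : ℍ) : ℍ) : ℂ) = -τ⁻¹ := by
    rw [UpperHalfPlane.modular_S_smul]
    simp [inv_neg]
  rw [hS] at h
  rw [h, mul_pow]
  congr 1
  rw [show (1 / 2 : ℂ) = ((2 : ℕ) : ℂ)⁻¹ by norm_num]
  exact Complex.cpow_nat_inv_pow _ two_ne_zero

/-- The function `w ↦ θ(2w)²` on `ℂ`. -/
noncomputable def thetaC (w : ℂ) : ℂ := jacobiTheta (2 * w) ^ 2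

theorem thetaC_add_one (w : ℂ) : thetaC (w + 1) = thetaC w := by
  unfold thetaC
  rw [show 2 * (w + 1) = 2 + 2 * w by ring, jacobiTheta_two_add]

theorem thetaC_neg_inv (w : ℂ) (hw : 0 < w.im) :
    thetaC (-(4 * w)⁻¹) = (-2 * Complex.I * w) * thetaC w := by
  unfold thetaC
  have hw0 : w ≠ 0 := by rintro rfl; simp at hw
  have h2 : 0 < (2 * w).im := by simpa using hw
  have := jacobiTheta_sq_neg_inv (2 * w) h2
  rw [show 2 * -(4 * w)⁻¹ = -(2 * w)⁻¹ by field_simp; ring, this]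
  ring

theorem thetaC_div (w : ℂ) (hw : 0 < w.im) :
    thetaC (w / (1 - 4 * w)) = (1 - 4 * w) * thetaC w := by
  have hw0 : w ≠ 0 := by rintro rfl; simp at hw
  have h1w : 1 - 4 * w ≠ 0 := by
    intro h
    have := congrArg Complex.im h
    simp at this
    linarith
  set u : ℂ := -(4 * w)⁻¹ + 1 with hu
  have hu_im : 0 < u.im := by
    have h4 : (4 * w) ≠ 0 := mul_ne_zero (by norm_num) hw0
    have : u.im = (4 * w).im / normSq (4 * w) := by
      simp [hu, Complex.inv_im, neg_div]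
      field_simp
    rw [this]
    exact div_pos (by simpa using hw) (normSq_pos.mpr h4)
  have h1 : w / (1 - 4 * w) = -(4 * u)⁻¹ := by
    have hu' : 4 * u = (4 * w - 1) / w := by rw [hu]; field_simp; ring
    rw [hu', inv_div, ← neg_div, div_eq_div_iff h1w (by intro h; apply h1w; linear_combination -h)]
    ring
  rw [h1, thetaC_neg_inv u hu_im, hu, thetaC_add_one, thetaC_neg_inv w hw]
  field_simp
  ring_nf
  rw [Complex.I_sq]
  ring

/-! ### The function on `ℍ` and its invariance under the two generators -/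

/-- `Θ(z) = θ(2z)²` on the upper half plane. -/
noncomputable def thetaFun (z : ℍ) : ℂ := thetaC (z : ℂ)

theorem thetaFun_mdifferentiable : MDiff thetaFun := by
  rw [UpperHalfPlane.mdifferentiable_iff]
  intro w hw
  have h2 : 0 < (2 * w).im := by simpa using hw
  have hd : DifferentiableAt ℂ thetaC w := by
    unfold thetaC
    exact ((differentiableAt_jacobiTheta h2).comp w
      (differentiableAt_id.const_mul (2 : ℂ))).pow 2
  have heq : (thetaFun ∘ ofComplex) =ᶠ[𝓝 w] thetaC := by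
    filter_upwards [isOpen_upperHalfPlaneSet.mem_nhds hw] with v hv
    simp only [Function.comp_apply, thetaFun]
    rw [ofComplex_apply_of_im_pos hv]
  exact (hd.congr_of_eventuallyEq heq).differentiableWithinAt

/-- The matrix `[[1,0],[-4,1]]`. -/
def matB : SL(2, ℤ) := ⟨!![1, 0; -4, 1], by simp [Matrix.det_fin_two_of]⟩

theorem thetaFun_slash_T : thetaFun ∣[(1 : ℤ)] ModularGroup.T = thetaFun := by
  ext z
  rw [ModularForm.slash_action_eq'_iff]
  have hz : ((ModularGroup.T • z : ℍ) : ℂ) = (z : ℂ) + 1 := by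
    rw [UpperHalfPlane.modular_T_smul, UpperHalfPlane.coe_vadd]
    push_cast
    ring
  simp only [thetaFun, hz, thetaC_add_one, ModularGroup.coe_T]
  simp

theorem thetaFun_slash_matB : thetaFun ∣[(1 : ℤ)] matB = thetaFun := by
  ext z
  rw [ModularForm.slash_action_eq'_iff]
  have hz : ((matB • z : ℍ) : ℂ) = (z : ℂ) / (1 - 4 * (z : ℂ)) := by
    rw [UpperHalfPlane.coe_specialLinearGroup_apply]
    simp [matB]
    ring_nf
  simp only [thetaFun, hz, thetaC_div _ z.im_pos]
  simp [matB]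
  ring_nf
  left
  trivial

/-! ### Euclidean descent: `Γ₁(4)` is generated by `T` and `[[1,0],[-4,1]]` -/

theorem coe_matB : (matB : Matrix (Fin 2) (Fin 2) ℤ) = !![1, 0; -4, 1] := rfl

theorem coe_matB_inv :
    ((matB⁻¹ : SL(2, ℤ)) : Matrix (Fin 2) (Fin 2) ℤ) = !![1, 0; 4, 1] := by
  rw [Matrix.SpecialLinearGroup.coe_inv, coe_matB, Matrix.adjugate_fin_two_of]
  simp

theorem T_mem_Gamma1 (N : ℕ) : ModularGroup.T ∈ Gamma1 N := by
  simp [Gamma1_mem, ModularGroup.coe_T]

theorem matB_mem_Gamma1_four : matB ∈ Gamma1 4 := by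
  rw [Gamma1_mem]
  refine ⟨by simp [coe_matB], by simp [coe_matB], ?_⟩
  simp only [coe_matB]
  decide

theorem gamma1_four_le (H : Subgroup SL(2, ℤ)) (hT : ModularGroup.T ∈ H) (hB : matB ∈ H) :
    Gamma1 4 ≤ H := by
  have key : ∀ n : ℕ, ∀ γ : SL(2, ℤ), γ ∈ Gamma1 4 →
      (γ 0 0).natAbs + (γ 1 0).natAbs = n → γ ∈ H := by
    intro n
    induction n using Nat.strong_induction_on with
    | _ n ih =>
      intro γ hγ hn
      have hdet : γ 0 0 * γ 1 1 - γ 0 1 * γ 1 0 = 1 := by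
        have := γ.det_coe
        rw [Matrix.det_fin_two] at this
        exact this
      have hγ' := hγ
      rw [Gamma1_mem] at hγ'
      obtain ⟨ha, hd, hc⟩ := hγ'
      have ha' : (4 : ℤ) ∣ γ 0 0 - 1 := by
        have : (((γ 0 0 - 1 : ℤ)) : ZMod 4) = 0 := by
          push_cast
          rw [ha]
          ring
        exact (ZMod.intCast_zmod_eq_zero_iff_dvd _ 4).mp this
      have hc' : (4 : ℤ) ∣ γ 1 0 := (ZMod.intCast_zmod_eq_zero_iff_dvd _ 4).mp hc
      by_cases hc0 : γ 1 0 = 0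
      · have had : γ 0 0 * γ 1 1 = 1 := by
          rw [hc0] at hdet
          simpa using hdet
        have ha1 : γ 0 0 = 1 := by
          rcases Int.eq_one_or_neg_one_of_mul_eq_one had with h | h
          · exact h
          · omega
        have hd1 : γ 1 1 = 1 := by
          rw [ha1] at had
          simpa using had
        have : γ = ModularGroup.T ^ (γ 0 1) := by
          ext i j
          rw [ModularGroup.coe_T_zpow]
          fin_cases i <;> fin_cases j <;> simp [ha1, hd1, hc0]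
        rw [this]
        exact H.zpow_mem hT _
      · have hT4 : ModularGroup.T ∈ Gamma1 4 := T_mem_Gamma1 4
        have hB4 : matB ∈ Gamma1 4 := matB_mem_Gamma1_four
        have e1 : (ModularGroup.T * γ) 0 0 = γ 0 0 + γ 1 0 := by
          simp [Matrix.SpecialLinearGroup.coe_mul, ModularGroup.coe_T, Matrix.mul_apply,
            Fin.sum_univ_two]
        have e2 : (ModularGroup.T * γ) 1 0 = γ 1 0 := by
          simp [Matrix.SpecialLinearGroup.coe_mul, ModularGroup.coe_T, Matrix.mul_apply,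
            Fin.sum_univ_two]
        have e3 : (ModularGroup.T⁻¹ * γ) 0 0 = γ 0 0 - γ 1 0 := by
          simp [Matrix.SpecialLinearGroup.coe_mul, ModularGroup.coe_T_inv, Matrix.mul_apply,
            Fin.sum_univ_two]
          ring
        have e4 : (ModularGroup.T⁻¹ * γ) 1 0 = γ 1 0 := by
          simp [Matrix.SpecialLinearGroup.coe_mul, ModularGroup.coe_T_inv, Matrix.mul_apply,
            Fin.sum_univ_two]
        have e5 : (matB * γ) 0 0 = γ 0 0 := by
          simp [Matrix.SpecialLinearGroup.coe_mul, coe_matB, Matrix.mul_apply, Fin.sum_univ_two]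
        have e6 : (matB * γ) 1 0 = γ 1 0 - 4 * γ 0 0 := by
          simp [Matrix.SpecialLinearGroup.coe_mul, coe_matB, Matrix.mul_apply, Fin.sum_univ_two]
          ring
        have e7 : (matB⁻¹ * γ) 0 0 = γ 0 0 := by
          rw [Matrix.SpecialLinearGroup.coe_mul, coe_matB_inv]
          simp [Matrix.mul_apply, Fin.sum_univ_two]
        have e8 : (matB⁻¹ * γ) 1 0 = γ 1 0 + 4 * γ 0 0 := by
          rw [Matrix.SpecialLinearGroup.coe_mul, coe_matB_inv]
          simp [Matrix.mul_apply, Fin.sum_univ_two]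
          ring
        have hcases : (γ 0 0 + γ 1 0).natAbs < (γ 0 0).natAbs ∨
            (γ 0 0 - γ 1 0).natAbs < (γ 0 0).natAbs ∨
            (γ 1 0 - 4 * γ 0 0).natAbs < (γ 1 0).natAbs ∨
            (γ 1 0 + 4 * γ 0 0).natAbs < (γ 1 0).natAbs := by
          omega
        rcases hcases with h | h | h | h
        · have hmem : ModularGroup.T * γ ∈ H :=
            ih _ (by rw [e1, e2]; omega) (ModularGroup.T * γ) (mul_mem hT4 hγ) rfl
          have : γ = ModularGroup.T⁻¹ * (ModularGroup.T * γ) := by group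
          rw [this]
          exact H.mul_mem (H.inv_mem hT) hmem
        · have hmem : ModularGroup.T⁻¹ * γ ∈ H :=
            ih _ (by rw [e3, e4]; omega) (ModularGroup.T⁻¹ * γ)
              (mul_mem (inv_mem hT4) hγ) rfl
          have : γ = ModularGroup.T * (ModularGroup.T⁻¹ * γ) := by group
          rw [this]
          exact H.mul_mem hT hmem
        · have hmem : matB * γ ∈ H :=
            ih _ (by rw [e5, e6]; omega) (matB * γ) (mul_mem hB4 hγ) rfl
          have : γ = matB⁻¹ * (matB * γ) := by group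
          rw [this]
          exact H.mul_mem (H.inv_mem hB) hmem
        · have hmem : matB⁻¹ * γ ∈ H :=
            ih _ (by rw [e7, e8]; omega) (matB⁻¹ * γ) (mul_mem (inv_mem hB4) hγ) rfl
          have : γ = matB * (matB⁻¹ * γ) := by group
          rw [this]
          exact H.mul_mem hB hmem
  intro γ hγ
  exact key _ γ hγ rfl

/-- The stabiliser of a function under the weight-`k` slash action of `SL(2, ℤ)`. -/
def slashStab (k : ℤ) (F : ℍ → ℂ) : Subgroup SL(2, ℤ) where
  carrier := {γ | F ∣[k] γ = F}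
  mul_mem' := by
    intro a b ha hb
    simp only [Set.mem_ofPred_eq] at *
    rw [SlashAction.slash_mul, ha, hb]
  one_mem' := by simp [SlashAction.slash_one]
  inv_mem' := by
    intro a ha
    simp only [Set.mem_ofPred_eq] at *
    conv_lhs => rw [← ha]
    rw [← SlashAction.slash_mul, mul_inv_cancel, SlashAction.slash_one]

theorem mem_slashStab {k : ℤ} {F : ℍ → ℂ} {γ : SL(2, ℤ)} :
    γ ∈ slashStab k F ↔ F ∣[k] γ = F := Iff.rfl

/-- `Θ` is invariant of weight one under `Γ₁(4)`. -/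
theorem gamma1_four_le_slashStab_thetaFun : Gamma1 4 ≤ slashStab 1 thetaFun :=
  gamma1_four_le _ thetaFun_slash_T thetaFun_slash_matB

theorem Gamma1_le_of_dvd {N M : ℕ} (h : N ∣ M) : Gamma1 M ≤ Gamma1 N := by
  intro γ hγ
  rw [Gamma1_mem] at hγ ⊢
  have key : ∀ x : ℤ, ∀ y : ℤ, ((x : ZMod M) = (y : ZMod M)) → ((x : ZMod N) = (y : ZMod N)) := by
    intro x y hxy
    rw [ZMod.intCast_eq_intCast_iff_dvd_sub] at hxy ⊢
    exact (Int.natCast_dvd_natCast.mpr h).trans hxy
  refine ⟨?_, ?_, ?_⟩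
  · have := key (γ 0 0) 1 (by simpa using hγ.1)
    simpa using this
  · have := key (γ 1 1) 1 (by simpa using hγ.2.1)
    simpa using this
  · have := key (γ 1 0) 0 (by simpa using hγ.2.2)
    simpa using this

theorem thetaFun_slash_of_mem {M : ℕ} (h4 : 4 ∣ M) {γ : SL(2, ℤ)} (hγ : γ ∈ Gamma1 M) :
    thetaFun ∣[(1 : ℤ)] γ = thetaFun :=
  gamma1_four_le_slashStab_thetaFun (Gamma1_le_of_dvd h4 hγ)

/-! ### The global bound -/

theorem norm_jacobiTheta_le_three {τ : ℂ} (hτ : 1 ≤ τ.im) : ‖jacobiTheta τ‖ ≤ 3 := by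
  have h0 : 0 < τ.im := by linarith
  have h := norm_jacobiTheta_sub_one_le h0
  set e := Real.exp (-π * τ.im) with he
  have he_pos : 0 < e := Real.exp_pos _
  have he_le : e ≤ 1 / 2 := by
    have h1 : -π * τ.im ≤ -1 := by nlinarith [Real.pi_gt_three]
    have h2 : Real.exp (-π * τ.im) ≤ Real.exp (-1) := Real.exp_le_exp.mpr h1
    have h3 : Real.exp (-1) ≤ 1 / 2 := by
      rw [Real.exp_neg]
      have h4 := Real.add_one_le_exp (1 : ℝ)
      rw [inv_le_comm₀ (Real.exp_pos 1) (by norm_num)]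
      norm_num
      linarith
    linarith
  have h4 : 2 / (1 - e) * e ≤ 2 := by
    rw [div_mul_eq_mul_div, div_le_iff₀ (by linarith)]
    nlinarith
  calc ‖jacobiTheta τ‖ = ‖(jacobiTheta τ - 1) + 1‖ := by ring_nf
    _ ≤ ‖jacobiTheta τ - 1‖ + ‖(1 : ℂ)‖ := norm_add_le _ _
    _ ≤ 2 + 1 := by
      rw [norm_one]
      linarith
    _ = 3 := by norm_num

theorem norm_jacobiTheta_le_im {τ : ℂ} (hτ : 0 < τ.im) :
    ‖jacobiTheta τ‖ ≤ ‖jacobiTheta (Complex.I * τ.im)‖ := by
  have hIt : 0 < (Complex.I * (τ.im : ℂ)).im := by simpa using hτ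
  have hnorm : ∀ n : ℤ, ‖cexp (π * Complex.I * (n : ℂ) ^ 2 * τ)‖ =
      Real.exp (-π * (n : ℝ) ^ 2 * τ.im) := by
    intro n
    rw [Complex.norm_exp]
    congr 1
    have : (π * Complex.I * (n : ℂ) ^ 2 * τ : ℂ) = ((π * (n : ℝ) ^ 2 : ℝ) : ℂ) * (τ * Complex.I) := by
      push_cast
      ring
    rw [this, Complex.re_ofReal_mul, Complex.mul_I_re]
    ring
  have hterm : ∀ n : ℤ, cexp (π * Complex.I * (n : ℂ) ^ 2 * (Complex.I * (τ.im : ℂ))) =
      ((Real.exp (-π * (n : ℝ) ^ 2 * τ.im) : ℝ) : ℂ) := by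
    intro n
    push_cast
    congr 1
    ring_nf
    rw [Complex.I_sq]
    ring
  have hs1 : Summable (fun n : ℤ => cexp (π * Complex.I * (n : ℂ) ^ 2 * τ)) := by
    have := (summable_jacobiTheta₂_term_iff 0 τ).mpr hτ
    simpa [jacobiTheta₂_term] using this
  have hs2 : Summable (fun n : ℤ => Real.exp (-π * (n : ℝ) ^ 2 * τ.im)) := by
    have := hs1.norm
    simpa only [hnorm] using this
  have h1 : ‖jacobiTheta τ‖ ≤ ∑' n : ℤ, Real.exp (-π * (n : ℝ) ^ 2 * τ.im) := by
    unfold jacobiTheta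
    refine (norm_tsum_le_tsum_norm hs1.norm).trans (le_of_eq ?_)
    exact tsum_congr hnorm
  have h2 : jacobiTheta (Complex.I * (τ.im : ℂ)) =
      ((∑' n : ℤ, Real.exp (-π * (n : ℝ) ^ 2 * τ.im) : ℝ) : ℂ) := by
    unfold jacobiTheta
    rw [Complex.ofReal_tsum]
    exact tsum_congr hterm
  rw [h2, Complex.norm_real, Real.norm_of_nonneg (tsum_nonneg fun n => (Real.exp_pos _).le)]
  exact h1

theorem norm_jacobiTheta_sq_le {τ : ℂ} (hτ : 0 < τ.im) :
    ‖jacobiTheta τ‖ ^ 2 ≤ 9 * (1 + 1 / τ.im) := by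
  rcases le_or_gt 1 τ.im with h | h
  · have h3 := norm_jacobiTheta_le_three h
    have h1 : 0 ≤ 1 / τ.im := by positivity
    nlinarith [norm_nonneg (jacobiTheta τ)]
  · set t := τ.im with ht
    have h1 := norm_jacobiTheta_le_im hτ
    have hIt : 0 < (Complex.I * (t : ℂ)).im := by simpa using hτ
    have h2 := jacobiTheta_sq_neg_inv (Complex.I * (t : ℂ)) hIt
    have ht0 : (t : ℂ) ≠ 0 := by exact_mod_cast hτ.ne'
    have h3 : -(Complex.I * (t : ℂ))⁻¹ = Complex.I * (((1 / t : ℝ)) : ℂ) := by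
      push_cast
      rw [mul_inv, Complex.inv_I]
      ring
    have h4 : ‖jacobiTheta (Complex.I * (((1 / t : ℝ)) : ℂ))‖ ≤ 3 := by
      apply norm_jacobiTheta_le_three
      have : (Complex.I * (((1 / t : ℝ)) : ℂ)).im = 1 / t := by simp
      rw [this, le_div_iff₀ hτ]
      linarith
    have h5 : t * ‖jacobiTheta (Complex.I * (t : ℂ))‖ ^ 2 =
        ‖jacobiTheta (Complex.I * (((1 / t : ℝ)) : ℂ))‖ ^ 2 := by
      rw [← h3, ← norm_pow, ← norm_pow, h2, norm_mul]
      congr 1
      have : -Complex.I * (Complex.I * (t : ℂ)) = (t : ℂ) := by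
        ring_nf
        rw [Complex.I_sq]
        ring
      rw [this, Complex.norm_real, Real.norm_of_nonneg hτ.le]
    have h6 : ‖jacobiTheta τ‖ ^ 2 ≤ ‖jacobiTheta (Complex.I * (t : ℂ))‖ ^ 2 :=
      pow_le_pow_left₀ (norm_nonneg _) h1 2
    have h7 : ‖jacobiTheta (Complex.I * (t : ℂ))‖ ^ 2 ≤ 9 / t := by
      rw [le_div_iff₀ hτ, mul_comm, h5]
      nlinarith [norm_nonneg (jacobiTheta (Complex.I * (((1 / t : ℝ)) : ℂ)))]
    have h8 : 9 / t ≤ 9 * (1 + 1 / t) := by
      have : 9 / t = 9 * (1 / t) := by ring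
      rw [this]
      nlinarith
    linarith

theorem norm_thetaFun_le (z : ℍ) : ‖thetaFun z‖ ≤ 9 * (1 + 1 / z.im) := by
  have h2 : 0 < (2 * (z : ℂ)).im := by simpa using z.im_pos
  have h := norm_jacobiTheta_sq_le h2
  have him : (2 * (z : ℂ)).im = 2 * z.im := by simp
  rw [him] at h
  have : ‖thetaFun z‖ = ‖jacobiTheta (2 * (z : ℂ))‖ ^ 2 := by
    simp [thetaFun, thetaC]
  rw [this]
  refine h.trans ?_
  have hz := z.im_pos
  have : 1 / (2 * z.im) ≤ 1 / z.im := by
    apply one_div_le_one_div_of_le hz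
    linarith
  linarith

/-! ### Boundedness at every cusp -/

theorem Gamma_le_Gamma1 (N : ℕ) : CongruenceSubgroup.Gamma N ≤ Gamma1 N := by
  intro γ hγ
  rw [Gamma_mem] at hγ
  rw [Gamma1_mem]
  exact ⟨hγ.1, hγ.2.2.2, hγ.2.2.1⟩

/-- `Θ ∣[1] γ` is `4`-periodic for every `γ ∈ SL(2, ℤ)`. -/
theorem thetaFun_slash_T_zpow (γ : SL(2, ℤ)) (m : ℤ) (z : ℍ) :
    (thetaFun ∣[(1 : ℤ)] γ) (ModularGroup.T ^ (4 * m) • z) = (thetaFun ∣[(1 : ℤ)] γ) z := by
  have hmem : γ * ModularGroup.T ^ (4 * m) * γ⁻¹ ∈ slashStab 1 thetaFun := by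
    apply gamma1_four_le_slashStab_thetaFun
    apply Gamma_le_Gamma1
    apply (Gamma_normal 4).conj_mem
    exact ModularGroup_T_pow_mem_Gamma 4 (4 * m) (dvd_mul_right _ _)
  have h1 : (thetaFun ∣[(1 : ℤ)] γ) ∣[(1 : ℤ)] (ModularGroup.T ^ (4 * m)) =
      thetaFun ∣[(1 : ℤ)] γ := by
    rw [← SlashAction.slash_mul]
    have : γ * ModularGroup.T ^ (4 * m) = (γ * ModularGroup.T ^ (4 * m) * γ⁻¹) * γ := by group
    rw [this, SlashAction.slash_mul, mem_slashStab.mp hmem]
  have h2 := (ModularForm.slash_action_eq'_iff 1 _ (ModularGroup.T ^ (4 * m)) z).mp (congrFun h1 z)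
  rw [h2]
  simp [ModularGroup.coe_T_zpow]

theorem norm_thetaFun_slash_le (γ : SL(2, ℤ)) (z : ℍ) (hz : 1 ≤ z.im) (hx : |z.re| ≤ 2) :
    ‖(thetaFun ∣[(1 : ℤ)] γ) z‖ ≤ 9 * (1 + (3 * |((γ 1 0 : ℤ) : ℝ)| + |((γ 1 1 : ℤ) : ℝ)|)) := by
  set c : ℝ := ((γ 1 0 : ℤ) : ℝ) with hc
  set d : ℝ := ((γ 1 1 : ℤ) : ℝ) with hd
  have hy := z.im_pos
  set D : ℂ := denom γ z with hD
  have hDeq : D = ((c * z.re + d : ℝ) : ℂ) + ((c * z.im : ℝ) : ℂ) * Complex.I := by
    rw [hD, ModularGroup.denom_apply]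
    apply Complex.ext <;> simp [hc, hd]
  have hnsq : Complex.normSq D = (c * z.re + d) ^ 2 + (c * z.im) ^ 2 := by
    rw [hDeq, Complex.normSq_add_mul_I]
  have hnorm2 : ‖D‖ ^ 2 = (c * z.re + d) ^ 2 + (c * z.im) ^ 2 := by
    rw [← hnsq, Complex.sq_norm]
  -- lower bound `1 ≤ ‖D‖`
  have hcd : 1 ≤ (c * z.re + d) ^ 2 + (c * z.im) ^ 2 := by
    by_cases hc0 : γ 1 0 = 0
    · have hdet : γ 0 0 * γ 1 1 - γ 0 1 * γ 1 0 = 1 := by
        have := γ.det_coe
        rw [Matrix.det_fin_two] at this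
        exact this
      have hd0 : γ 1 1 ≠ 0 := by
        intro h
        rw [hc0, h] at hdet
        simp at hdet
      have hd1 : (1 : ℝ) ≤ d ^ 2 := by
        rw [hd]
        exact_mod_cast (one_le_sq_iff_one_le_abs _).mpr (Int.one_le_abs hd0)
      have hc0' : c = 0 := by rw [hc, hc0]; simp
      rw [hc0']
      simpa using hd1
    · have hc1 : (1 : ℝ) ≤ c ^ 2 := by
        rw [hc]
        exact_mod_cast (one_le_sq_iff_one_le_abs _).mpr (Int.one_le_abs hc0)
      have hy2 : (1 : ℝ) ≤ z.im ^ 2 := by nlinarith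
      have h3 : 1 ≤ (c * z.im) ^ 2 := by
        rw [mul_pow]
        exact one_le_mul_of_one_le_of_one_le hc1 hy2
      nlinarith [sq_nonneg (c * z.re + d)]
  have hD1 : 1 ≤ ‖D‖ := by
    have h0 : 0 ≤ ‖D‖ := norm_nonneg _
    nlinarith
  -- upper bound `‖D‖ ≤ |c| (|x| + y) + |d|`
  have hD2 : ‖D‖ ≤ |c| * (2 + z.im) + |d| := by
    rw [hDeq]
    calc ‖((c * z.re + d : ℝ) : ℂ) + ((c * z.im : ℝ) : ℂ) * Complex.I‖
        ≤ ‖((c * z.re + d : ℝ) : ℂ)‖ + ‖((c * z.im : ℝ) : ℂ) * Complex.I‖ := norm_add_le _ _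
      _ = |c * z.re + d| + |c * z.im| := by
        rw [norm_mul, Complex.norm_I, mul_one, Complex.norm_real, Complex.norm_real,
          Real.norm_eq_abs, Real.norm_eq_abs]
      _ ≤ (|c| * |z.re| + |d|) + |c| * z.im := by
        gcongr
        · exact (abs_add_le _ _).trans (by rw [abs_mul])
        · rw [abs_mul, abs_of_pos hy]
      _ ≤ |c| * (2 + z.im) + |d| := by nlinarith [abs_nonneg c]
  -- the bound on `Θ (γ z)`
  have him : (γ • z).im = z.im / Complex.normSq D := ModularGroup.im_smul_eq_div_normSq γ z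
  have hθ := norm_thetaFun_le (γ • z)
  have hnsq_pos : 0 < Complex.normSq D := by rw [hnsq]; linarith
  have hinv : 1 / (γ • z).im = ‖D‖ ^ 2 / z.im := by
    rw [him, Complex.sq_norm]
    field_simp
  rw [hinv] at hθ
  rw [ModularForm.SL_slash_apply, norm_mul, ← hD]
  have hDinv : ‖D ^ (-(1 : ℤ))‖ = 1 / ‖D‖ := by simp
  rw [hDinv]
  have hDpos : 0 < ‖D‖ := by linarith
  calc ‖thetaFun (γ • z)‖ * (1 / ‖D‖) ≤ 9 * (1 + ‖D‖ ^ 2 / z.im) * (1 / ‖D‖) := by gcongr
    _ = 9 * (1 / ‖D‖ + ‖D‖ / z.im) := by field_simp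
    _ ≤ 9 * (1 + (3 * |c| + |d|)) := by
      have h1 : 1 / ‖D‖ ≤ 1 := by
        rw [div_le_one hDpos]
        exact hD1
      have h2 : ‖D‖ / z.im ≤ 3 * |c| + |d| := by
        rw [div_le_iff₀ hy]
        nlinarith [abs_nonneg c, abs_nonneg d]
      linarith

theorem thetaFun_slash_isBoundedAtImInfty (γ : SL(2, ℤ)) :
    IsBoundedAtImInfty (thetaFun ∣[(1 : ℤ)] γ) := by
  rw [isBoundedAtImInfty_iff]
  refine ⟨9 * (1 + (3 * |((γ 1 0 : ℤ) : ℝ)| + |((γ 1 1 : ℤ) : ℝ)|)), 1, fun z hz => ?_⟩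
  set m : ℤ := round (z.re / 4) with hm
  set z' : ℍ := ModularGroup.T ^ (4 * (-m)) • z with hz'
  have hz'z : ModularGroup.T ^ (4 * m) • z' = z := by
    rw [hz', ← mul_smul, ← _root_.zpow_add]
    simp
  have hre : z'.re = z.re - 4 * m := by
    rw [hz', ModularGroup.re_T_zpow_smul]
    push_cast
    ring
  have him : z'.im = z.im := by
    rw [hz', ModularGroup.im_T_zpow_smul]
  have hx : |z'.re| ≤ 2 := by
    rw [hre]
    have := abs_sub_round (z.re / 4)
    rw [← hm] at this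
    rw [abs_le] at this ⊢
    constructor <;> linarith [this.1, this.2]
  rw [← hz'z, thetaFun_slash_T_zpow]
  exact norm_thetaFun_slash_le γ z' (him ▸ hz) hx

/-! ### The modular form -/

/-- `Θ(z) = θ(2z)²` as a modular form of weight one on `Γ₁(M)`, `4 ∣ M`. -/
noncomputable def thetaForm (M : ℕ) (h4 : 4 ∣ M) : ModularForm (Gamma1 M) 1 where
  toFun := thetaFun
  slash_action_eq' := by
    intro γ hγ
    obtain ⟨γ', hγ', rfl⟩ := Subgroup.mem_map.mp hγ
    exact thetaFun_slash_of_mem h4 hγ'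
  holo' := thetaFun_mdifferentiable
  bdd_at_cusps' := by
    intro c hc
    have hc' : IsCusp c 𝒮ℒ := hc.mono (Subgroup.map_le_range _ _)
    rw [OnePoint.isBoundedAt_iff_forall_SL2Z hc']
    intro γ _
    exact thetaFun_slash_isBoundedAtImInfty γ

@[simp]
theorem coe_thetaForm (M : ℕ) (h4 : 4 ∣ M) : (thetaForm M h4 : ℍ → ℂ) = thetaFun := rfl

/-! ### The `q`-expansion -/

/-- `ϑ(z) = θ(2z) = ∑ q^{n²}`. -/
noncomputable def thetaHalf (z : ℍ) : ℂ := jacobiTheta (2 * (z : ℂ))

theorem thetaFun_eq_mul : thetaFun = thetaHalf * thetaHalf := by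
  ext z
  simp [thetaFun, thetaC, thetaHalf, pow_two]

open Classical in
/-- The coefficients of `∑_{n ∈ ℤ} q^{n²}`: `1` at `0`, `2` at the nonzero squares. -/
noncomputable def thetaCoeff (m : ℕ) : ℤ :=
  (if m = 0 then 1 else 0) + 2 * (if ∃ n : ℕ, (n + 1) ^ 2 = m then 1 else 0)

theorem thetaCoeff_zero : thetaCoeff 0 = 1 := by
  simp [thetaCoeff]

theorem hasSum_thetaHalf (z : ℍ) :
    HasSum (fun m : ℕ => ((thetaCoeff m : ℤ) : ℂ) • Function.Periodic.qParam 1 (z : ℂ) ^ m)
      (thetaHalf z) := by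
  classical
  set q := Function.Periodic.qParam 1 (z : ℂ) with hq
  have h2 : 0 < (2 * (z : ℂ)).im := by simpa using z.im_pos
  have h := hasSum_nat_jacobiTheta h2
  have hterm : ∀ n : ℕ, cexp (π * Complex.I * ((n : ℂ) + 1) ^ 2 * (2 * (z : ℂ))) =
      q ^ ((n + 1) ^ 2) := by
    intro n
    rw [hq, Function.Periodic.qParam, ← Complex.exp_nat_mul]
    congr 1
    push_cast
    ring
  simp only [hterm] at h
  have hinj : Function.Injective (fun n : ℕ => (n + 1) ^ 2) := by
    intro a b hab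
    have := Nat.pow_left_injective (n := 2) (by norm_num) hab
    omega
  let f : ℕ → ℂ := fun m => if ∃ n : ℕ, (n + 1) ^ 2 = m then q ^ m else 0
  have hf : HasSum f ((jacobiTheta (2 * (z : ℂ)) - 1) / 2) := by
    rw [← hinj.hasSum_iff (f := f)]
    · convert h using 2 with n
      simp [f]
    · intro m hm
      simp only [Set.mem_range, not_exists] at hm
      have : ¬ ∃ n : ℕ, (n + 1) ^ 2 = m := by
        rintro ⟨n, hn⟩
        exact hm n hn
      simp [f, this]
  have h0 : HasSum (fun m : ℕ => if m = 0 then (1 : ℂ) else 0) 1 := hasSum_ite_eq 0 1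
  have hsum := h0.add (hf.mul_left 2)
  convert hsum using 1
  · ext m
    by_cases hm0 : m = 0
    · subst hm0
      simp [thetaCoeff, f]
    · by_cases hsq : ∃ n : ℕ, (n + 1) ^ 2 = m
      · simp [thetaCoeff, f, hm0, hsq]
      · simp [thetaCoeff, f, hm0, hsq]
  · simp only [thetaHalf]
    ring

theorem thetaHalf_periodic : Function.Periodic (thetaHalf ∘ ofComplex) 1 := by
  intro w
  by_cases hw : 0 < w.im
  · have hw1 : 0 < (w + 1).im := by simpa using hw
    simp only [Function.comp_apply, ofComplex_apply_of_im_pos hw1, ofComplex_apply_of_im_pos hw,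
      thetaHalf]
    show jacobiTheta (2 * (w + 1)) = jacobiTheta (2 * w)
    rw [show 2 * (w + 1) = 2 + 2 * w by ring, jacobiTheta_two_add]
  · have h0 : w.im ≤ 0 := not_lt.mp hw
    have h1 : (w + 1).im ≤ 0 := by simpa using h0
    simp [ofComplex_apply_of_im_nonpos h1, ofComplex_apply_of_im_nonpos h0]

theorem thetaHalf_mdifferentiable : MDiff thetaHalf := by
  rw [UpperHalfPlane.mdifferentiable_iff]
  intro w hw
  have h2 : 0 < (2 * w).im := by simpa using hw
  have hd : DifferentiableAt ℂ (fun v : ℂ => jacobiTheta (2 * v)) w :=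
    (differentiableAt_jacobiTheta h2).comp w (differentiableAt_id.const_mul (2 : ℂ))
  have heq : (thetaHalf ∘ ofComplex) =ᶠ[𝓝 w] fun v : ℂ => jacobiTheta (2 * v) := by
    filter_upwards [isOpen_upperHalfPlaneSet.mem_nhds hw] with v hv
    simp only [Function.comp_apply, thetaHalf]
    rw [ofComplex_apply_of_im_pos hv]
  exact (hd.congr_of_eventuallyEq heq).differentiableWithinAt

theorem thetaHalf_isBoundedAtImInfty : IsBoundedAtImInfty thetaHalf := by
  have h := @isBoundedAtImInfty_of_hasSum_qExpansion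
  exact h (h := 1) (f := thetaHalf) (c := fun m => ((thetaCoeff m : ℤ) : ℂ)) one_pos
    (fun τ => hasSum_thetaHalf τ)

theorem thetaHalf_analyticAt : AnalyticAt ℂ (cuspFunction 1 thetaHalf) 0 :=
  analyticAt_cuspFunction_zero one_pos thetaHalf_periodic thetaHalf_mdifferentiable
    thetaHalf_isBoundedAtImInfty

/-- Uniqueness of `q`-expansion coefficients, for plain functions. -/
theorem qExpansion_coeff_unique_fun {f : ℍ → ℂ} {c : ℕ → ℂ}
    (hfanalytic : AnalyticAt ℂ (cuspFunction 1 f) 0)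
    (hf : ∀ τ : ℍ, HasSum (fun m : ℕ => c m • Function.Periodic.qParam 1 (τ : ℂ) ^ m) (f τ))
    (m : ℕ) : c m = (qExpansion 1 f).coeff m := by
  have h1 := (hasFPowerSeriesOnBall_cuspFunction one_pos hfanalytic hf).hasFPowerSeriesAt
  have h2 := hfanalytic.hasFPowerSeriesAt
  have h3 := congr_arg (FormalMultilinearSeries.coeff · m) (h1.eq_formalMultilinearSeries h2)
  rw [qExpansion_coeff]
  simpa [div_eq_mul_inv, mul_comm] using h3

theorem qExpansion_thetaHalf :
    qExpansion 1 thetaHalf = (PowerSeries.mk thetaCoeff).map (Int.castRingHom ℂ) := by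
  ext m
  have h2 := qExpansion_coeff_unique_fun thetaHalf_analyticAt
    (c := fun m : ℕ => ((thetaCoeff m : ℤ) : ℂ)) hasSum_thetaHalf m
  rw [PowerSeries.coeff_map, PowerSeries.coeff_mk]
  exact h2.symm

/-- The integral power series `(∑_{n ∈ ℤ} q^{n²})² = 1 + 4q + 4q² + …`. -/
noncomputable def thetaSeries : PowerSeries ℤ := PowerSeries.mk thetaCoeff ^ 2

theorem constantCoeff_thetaSeries : PowerSeries.constantCoeff thetaSeries = 1 := by
  simp [thetaSeries, thetaCoeff_zero]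

/-- The `q`-expansion of `Θ` is integral with constant term `1`. -/
theorem qExpansion_thetaFun :
    qExpansion 1 thetaFun = thetaSeries.map (Int.castRingHom ℂ) := by
  rw [thetaFun_eq_mul, qExpansion_mul thetaHalf_analyticAt thetaHalf_analyticAt,
    qExpansion_thetaHalf, thetaSeries, map_pow, pow_two]

theorem thetaFun_ne_zero : ∃ z : ℍ, thetaFun z ≠ 0 := by
  by_contra hcon
  push Not at hcon
  have h0 : thetaFun = 0 := funext hcon
  have h1 := qExpansion_thetaFun
  rw [h0, qExpansion_zero] at h1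
  have h2 := congrArg (PowerSeries.coeff 0) h1
  simp [constantCoeff_thetaSeries] at h2

end Fermat.Agent.S48.Conj
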