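import Mathlib
import Fermat.Prelude.Def_FLTPrelim_Modularity
import Fermat.Agent.S48.Conj.Quot
import Fermat.Agent.S48.Conj.Theta

/-!
# Galois conjugates and integrality of weight-one cusp forms on `Γ₁(M)`, `4 ∣ M`

`Fermat.Agent.S48.Conj` (Deligne–Serre, brick C, weight-one half).

Input (brick C1): `HInt2 M`, i.e. `S₂(Γ₁(M))` is spanned over `ℂ` by forms with integral
`q`-expansion.  Output:

* `exists_conj_cuspForm`: for `f ∈ S₁(Γ₁(M))` and `σ ∈ Aut(ℂ)` there is `h ∈ S₁(Γ₁(M))` with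
  `a_n(h) = σ(a_n(f))` for all `n`;
* `exists_finset_span_int`: the `q`-coefficients of `f ∈ S₁(Γ₁(M))` lie in a finitely generated
  `ℤ`-submodule of `ℂ`.

Method: with `Θ = θ(2z)² ∈ M₁(Γ₁(4))` (`Theta.lean`), the forms `fΘ` and `f²` are in
`S₂(Γ₁(M))`; let `G₁, G₂ ∈ S₂(Γ₁(M))` have `q`-expansions `σ(fΘ)`, `σ(f²)`.  Then
`G₁² = G₂Θ²`, so `h = G₁/Θ` is holomorphic (`Quot.lean`), `h² = G₂`, and the Petersson bound
`y |G₂| ≤ C` gives `y |h|² ≤ C`, which forces vanishing at every cusp.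
-/

set_option autoImplicit false

open UpperHalfPlane Filter Topology CongruenceSubgroup
open scoped Manifold MatrixGroups ModularForm

namespace Fermat.Agent.S48.Conj

/-- The exit shape of brick C1 (integral `q`-basis of `S₂(Γ₁(M))`), used as a hypothesis. -/
def HInt2 (M : ℕ) : Prop :=
  Submodule.span ℂ {g : CuspForm (Gamma1 M) 2 |
    ∀ n : ℕ, ∃ m : ℤ, ModularFormClass.qCoeff g n = (m : ℂ)} = ⊤

/-! ### `q`-expansions on `Γ₁(M)` -/

theorem one_mem_strictPeriods_Gamma1 (M : ℕ) :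
    (1 : ℝ) ∈ (Gamma1 M : Subgroup (GL (Fin 2) ℝ)).strictPeriods := by
  rw [strictPeriods_Gamma1]
  exact AddSubgroup.mem_zmultiples 1

theorem analyticAt_cusp {M : ℕ} {k : ℤ} {F : Type*} [FunLike F ℍ ℂ]
    [ModularFormClass F (Gamma1 M) k] (f : F) :
    AnalyticAt ℂ (cuspFunction 1 (f : ℍ → ℂ)) 0 :=
  ModularFormClass.analyticAt_cuspFunction_zero f one_pos (one_mem_strictPeriods_Gamma1 M)

/-- Functions on `ℍ` that are `1`-periodic, holomorphic and bounded at `i∞`. -/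
structure NiceFun (f : ℍ → ℂ) : Prop where
  per : Function.Periodic (f ∘ ofComplex) 1
  hol : MDiff f
  bdd : IsBoundedAtImInfty f

namespace NiceFun

variable {f g : ℍ → ℂ}

theorem analytic (hf : NiceFun f) : AnalyticAt ℂ (cuspFunction 1 f) 0 :=
  analyticAt_cuspFunction_zero one_pos hf.per hf.hol hf.bdd

theorem sub (hf : NiceFun f) (hg : NiceFun g) : NiceFun (f - g) :=
  ⟨hf.per.sub hg.per, hf.hol.sub hg.hol, hf.bdd.sub hg.bdd⟩

theorem mul (hf : NiceFun f) (hg : NiceFun g) : NiceFun (f * g) :=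
  ⟨hf.per.mul hg.per, hf.hol.mul hg.hol, hf.bdd.mul hg.bdd⟩

theorem eq_zero (hf : NiceFun f) (h : qExpansion 1 f = 0) : f = 0 :=
  (qExpansion_eq_zero_iff one_pos hf.per hf.hol hf.bdd).mp h

end NiceFun

theorem niceFun_of_modularFormClass {M : ℕ} {k : ℤ} {F : Type*} [FunLike F ℍ ℂ]
    [ModularFormClass F (Gamma1 M) k] (f : F) : NiceFun (f : ℍ → ℂ) :=
  have hΓ := one_mem_strictPeriods_Gamma1 M
  have : Fact (IsCusp OnePoint.infty (Gamma1 M : Subgroup (GL (Fin 2) ℝ))) :=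
    ⟨Subgroup.isCusp_of_mem_strictPeriods one_pos hΓ⟩
  ⟨SlashInvariantFormClass.periodic_comp_ofComplex f hΓ, ModularFormClass.holo f,
    ModularFormClass.bdd_at_infty f⟩

/-! ### Consequences of the integral structure in weight two -/

/-- Under `HInt2 M`, the `q`-expansions of `S₂(Γ₁(M))` are stable under ring endomorphisms of
`ℂ` acting on the coefficients. -/
theorem exists_conj_weight_two {M : ℕ} (hC1 : HInt2 M) (σ : ℂ →+* ℂ)
    (g : CuspForm (Gamma1 M) 2) :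
    ∃ g' : CuspForm (Gamma1 M) 2, qExpansion 1 g' = (qExpansion 1 g).map σ := by
  have hg : g ∈ Submodule.span ℂ {g : CuspForm (Gamma1 M) 2 |
      ∀ n : ℕ, ∃ m : ℤ, ModularFormClass.qCoeff g n = (m : ℂ)} := by
    rw [show Submodule.span ℂ {g : CuspForm (Gamma1 M) 2 |
      ∀ n : ℕ, ∃ m : ℤ, ModularFormClass.qCoeff g n = (m : ℂ)} = ⊤ from hC1]
    trivial
  induction hg using Submodule.span_induction with
  | mem g hg =>
    refine ⟨g, ?_⟩
    ext n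
    obtain ⟨m, hm⟩ := hg n
    have hm' : (PowerSeries.coeff n) (qExpansion 1 g) = (m : ℂ) := hm
    simp [hm']
  | zero =>
    refine ⟨0, ?_⟩
    have h0 : ((0 : CuspForm (Gamma1 M) 2) : ℍ → ℂ) = 0 := rfl
    rw [h0, qExpansion_zero, map_zero]
  | add g₁ g₂ _ _ ih₁ ih₂ =>
    obtain ⟨a, ha⟩ := ih₁
    obtain ⟨b, hb⟩ := ih₂
    refine ⟨a + b, ?_⟩
    have h1 : ((a + b : CuspForm (Gamma1 M) 2) : ℍ → ℂ) = a + b := rfl
    have h2 : ((g₁ + g₂ : CuspForm (Gamma1 M) 2) : ℍ → ℂ) = g₁ + g₂ := rfl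
    rw [h1, h2, qExpansion_add (analyticAt_cusp a) (analyticAt_cusp b),
      qExpansion_add (analyticAt_cusp g₁) (analyticAt_cusp g₂), ha, hb, map_add]
  | smul c g _ ih =>
    obtain ⟨a, ha⟩ := ih
    refine ⟨σ c • a, ?_⟩
    have h1 : ((σ c • a : CuspForm (Gamma1 M) 2) : ℍ → ℂ) = σ c • (a : ℍ → ℂ) := rfl
    have h2 : ((c • g : CuspForm (Gamma1 M) 2) : ℍ → ℂ) = c • (g : ℍ → ℂ) := rfl
    rw [h1, h2, qExpansion_smul (analyticAt_cusp a), qExpansion_smul (analyticAt_cusp g), ha]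
    ext n
    simp

/-- Under `HInt2 M`, the `q`-coefficients of any `g ∈ S₂(Γ₁(M))` lie in a finitely generated
`ℤ`-submodule of `ℂ`. -/
theorem exists_finset_weight_two {M : ℕ} (hC1 : HInt2 M) (g : CuspForm (Gamma1 M) 2) :
    ∃ S : Finset ℂ, ∀ n : ℕ,
      (PowerSeries.coeff n) (qExpansion 1 g) ∈ Submodule.span ℤ (S : Set ℂ) := by
  classical
  have hg : g ∈ Submodule.span ℂ {g : CuspForm (Gamma1 M) 2 |
      ∀ n : ℕ, ∃ m : ℤ, ModularFormClass.qCoeff g n = (m : ℂ)} := by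
    rw [show Submodule.span ℂ {g : CuspForm (Gamma1 M) 2 |
      ∀ n : ℕ, ∃ m : ℤ, ModularFormClass.qCoeff g n = (m : ℂ)} = ⊤ from hC1]
    trivial
  induction hg using Submodule.span_induction with
  | mem g hg =>
    refine ⟨{1}, fun n => ?_⟩
    obtain ⟨m, hm⟩ := hg n
    have hm' : (PowerSeries.coeff n) (qExpansion 1 g) = (m : ℂ) := hm
    rw [hm']
    have : (m : ℂ) = m • (1 : ℂ) := by simp
    rw [this]
    exact Submodule.smul_mem _ _ (Submodule.subset_span (by simp))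
  | zero =>
    refine ⟨∅, fun n => ?_⟩
    have h0 : ((0 : CuspForm (Gamma1 M) 2) : ℍ → ℂ) = 0 := rfl
    rw [h0, qExpansion_zero]
    simp
  | add g₁ g₂ _ _ ih₁ ih₂ =>
    obtain ⟨S₁, hS₁⟩ := ih₁
    obtain ⟨S₂, hS₂⟩ := ih₂
    refine ⟨S₁ ∪ S₂, fun n => ?_⟩
    have h2 : ((g₁ + g₂ : CuspForm (Gamma1 M) 2) : ℍ → ℂ) = g₁ + g₂ := rfl
    rw [h2, qExpansion_add (analyticAt_cusp g₁) (analyticAt_cusp g₂), map_add]
    refine Submodule.add_mem _ ?_ ?_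
    · exact Submodule.span_mono (by simp) (hS₁ n)
    · exact Submodule.span_mono (by simp) (hS₂ n)
  | smul c g _ ih =>
    obtain ⟨S, hS⟩ := ih
    refine ⟨S.image (fun x => c * x), fun n => ?_⟩
    have h2 : ((c • g : CuspForm (Gamma1 M) 2) : ℍ → ℂ) = c • (g : ℍ → ℂ) := rfl
    rw [h2, qExpansion_smul (analyticAt_cusp g)]
    have h3 : (PowerSeries.coeff n) (c • qExpansion 1 (g : ℍ → ℂ)) =
        LinearMap.mulLeft ℤ c ((PowerSeries.coeff n) (qExpansion 1 (g : ℍ → ℂ))) := by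
      simp
    rw [h3]
    have h4 : ((S.image (fun x => c * x) : Finset ℂ) : Set ℂ) = LinearMap.mulLeft ℤ c '' (S : Set ℂ) := by
      ext x
      simp
    rw [h4, ← Submodule.map_span]
    exact Submodule.mem_map_of_mem (hS n)

/-! ### Vanishing at the cusps from a Petersson-type bound -/

/-- If `y ‖F‖²` is bounded on `ℍ`, then every weight-one translate of `F` by `SL(2, ℤ)` tends
to zero at `i∞`. -/
theorem isZeroAtImInfty_slash_of_sq_bound (F : ℍ → ℂ) (C : ℝ)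
    (hb : ∀ z : ℍ, ‖F z‖ ^ 2 * z.im ≤ C) (γ : SL(2, ℤ)) :
    IsZeroAtImInfty (F ∣[(1 : ℤ)] γ) := by
  have key : ∀ z : ℍ, ‖(F ∣[(1 : ℤ)] γ) z‖ ^ 2 * z.im ≤ C := by
    intro z
    have hD : denom γ z ≠ 0 := denom_ne_zero γ z
    have hDn : 0 < Complex.normSq (denom γ z) := Complex.normSq_pos.mpr hD
    have him : (γ • z).im = z.im / Complex.normSq (denom γ z) :=
      ModularGroup.im_smul_eq_div_normSq γ z
    have h1 := hb (γ • z)
    rw [him] at h1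
    rw [ModularForm.SL_slash_apply, norm_mul, mul_pow]
    have h2 : ‖denom γ z ^ (-(1 : ℤ))‖ ^ 2 = 1 / Complex.normSq (denom γ z) := by
      rw [zpow_neg, zpow_one, norm_inv, inv_pow, Complex.sq_norm, one_div]
    rw [h2]
    calc ‖F (γ • z)‖ ^ 2 * (1 / Complex.normSq (denom γ z)) * z.im
        = ‖F (γ • z)‖ ^ 2 * (z.im / Complex.normSq (denom γ z)) := by ring
      _ ≤ C := h1
  rw [isZeroAtImInfty_iff]
  intro ε hε
  refine ⟨(|C| + 1) / ε ^ 2, fun z hz => ?_⟩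
  have hz0 := z.im_pos
  have hk := key z
  have hA : 0 < (|C| + 1) / ε ^ 2 := by positivity
  have h1 : ‖(F ∣[(1 : ℤ)] γ) z‖ ^ 2 * ((|C| + 1) / ε ^ 2) ≤ |C| := by
    calc ‖(F ∣[(1 : ℤ)] γ) z‖ ^ 2 * ((|C| + 1) / ε ^ 2)
        ≤ ‖(F ∣[(1 : ℤ)] γ) z‖ ^ 2 * z.im := by gcongr
      _ ≤ C := hk
      _ ≤ |C| := le_abs_self C
  have h2 : ‖(F ∣[(1 : ℤ)] γ) z‖ ^ 2 ≤ ε ^ 2 := by
    have h3 : ‖(F ∣[(1 : ℤ)] γ) z‖ ^ 2 * (|C| + 1) ≤ |C| * ε ^ 2 := by
      have := mul_le_mul_of_nonneg_right h1 (sq_nonneg ε)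
      have hε2 : ε ^ 2 ≠ 0 := by positivity
      calc ‖(F ∣[(1 : ℤ)] γ) z‖ ^ 2 * (|C| + 1)
          = ‖(F ∣[(1 : ℤ)] γ) z‖ ^ 2 * ((|C| + 1) / ε ^ 2) * ε ^ 2 := by field_simp
        _ ≤ |C| * ε ^ 2 := this
    have h4 : 0 ≤ |C| := abs_nonneg C
    have h5 : 0 ≤ ‖(F ∣[(1 : ℤ)] γ) z‖ ^ 2 := sq_nonneg _
    have h6 : 0 < ε ^ 2 := by positivity
    nlinarith
  exact (pow_le_pow_iff_left₀ (norm_nonneg _) hε.le two_ne_zero).mp h2

/-! ### The conjugation theorem -/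

/-- **Galois conjugates in weight one.**  Let `4 ∣ M` and assume the integral structure `HInt2 M`
of `S₂(Γ₁(M))`.  For every `f ∈ S₁(Γ₁(M))` and every `σ ∈ Aut(ℂ)` there is `h ∈ S₁(Γ₁(M))`
whose `q`-expansion is the `σ`-conjugate of the `q`-expansion of `f`. -/
theorem exists_conj_qExpansion (M : ℕ) [NeZero M] (h4 : 4 ∣ M) (hC1 : HInt2 M)
    (f : CuspForm (Gamma1 M) 1) (σ : ℂ →+* ℂ) :
    ∃ h : CuspForm (Gamma1 M) 1, qExpansion 1 h = (qExpansion 1 f).map σ := by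
  set Θ : ModularForm (Gamma1 M) 1 := thetaForm M h4 with hΘdef
  have hΘcoe : (Θ : ℍ → ℂ) = thetaFun := rfl
  -- `F₁ = f Θ`, `F₂ = f²` in weight two
  let F₁ : CuspForm (Gamma1 M) 2 := CuspForm.mcast (by norm_num) (f.mulModularForm Θ)
  let F₂ : CuspForm (Gamma1 M) 2 :=
    CuspForm.mcast (by norm_num) (f.mulModularForm (ModularFormClass.modularForm f))
  have hF₁ : (F₁ : ℍ → ℂ) = (f : ℍ → ℂ) * thetaFun := rfl
  have hF₂ : (F₂ : ℍ → ℂ) = (f : ℍ → ℂ) * (f : ℍ → ℂ) := rfl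
  obtain ⟨G₁, hG₁⟩ := exists_conj_weight_two hC1 σ F₁
  obtain ⟨G₂, hG₂⟩ := exists_conj_weight_two hC1 σ F₂
  have hfA := analyticAt_cusp f
  have hΘA : AnalyticAt ℂ (cuspFunction 1 thetaFun) 0 := analyticAt_cusp Θ
  have hqF₁ : qExpansion 1 (F₁ : ℍ → ℂ) = qExpansion 1 (f : ℍ → ℂ) * qExpansion 1 thetaFun := by
    rw [hF₁]
    exact qExpansion_mul hfA hΘA
  have hqF₂ : qExpansion 1 (F₂ : ℍ → ℂ) = qExpansion 1 (f : ℍ → ℂ) * qExpansion 1 (f : ℍ → ℂ) := by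
    rw [hF₂]
    exact qExpansion_mul hfA hfA
  have hσΘ : (qExpansion 1 thetaFun).map σ = qExpansion 1 thetaFun := by
    rw [qExpansion_thetaFun]
    ext n
    simp
  have hΘne : qExpansion 1 thetaFun ≠ 0 := by
    intro h0
    have h1 := qExpansion_thetaFun
    rw [h0] at h1
    have h2 := congrArg (PowerSeries.coeff 0) h1
    simp [constantCoeff_thetaSeries] at h2
  -- nice functions
  have nG₁ : NiceFun (G₁ : ℍ → ℂ) := niceFun_of_modularFormClass G₁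
  have nG₂ : NiceFun (G₂ : ℍ → ℂ) := niceFun_of_modularFormClass G₂
  have nΘ : NiceFun thetaFun := niceFun_of_modularFormClass Θ
  -- `G₁² = G₂ Θ²`
  have hsq : (G₁ : ℍ → ℂ) ^ 2 = (G₂ : ℍ → ℂ) * thetaFun ^ 2 := by
    have hL : qExpansion 1 ((G₁ : ℍ → ℂ) * (G₁ : ℍ → ℂ)) =
        qExpansion 1 (G₁ : ℍ → ℂ) * qExpansion 1 (G₁ : ℍ → ℂ) :=
      qExpansion_mul nG₁.analytic nG₁.analytic
    have hR1 : qExpansion 1 (thetaFun * thetaFun) = qExpansion 1 thetaFun * qExpansion 1 thetaFun :=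
      qExpansion_mul nΘ.analytic nΘ.analytic
    have hR : qExpansion 1 ((G₂ : ℍ → ℂ) * (thetaFun * thetaFun)) =
        qExpansion 1 (G₂ : ℍ → ℂ) * (qExpansion 1 thetaFun * qExpansion 1 thetaFun) := by
      rw [qExpansion_mul nG₂.analytic (nΘ.mul nΘ).analytic, hR1]
    have hnice : NiceFun ((G₁ : ℍ → ℂ) * (G₁ : ℍ → ℂ) - (G₂ : ℍ → ℂ) * (thetaFun * thetaFun)) :=
      (nG₁.mul nG₁).sub (nG₂.mul (nΘ.mul nΘ))
    have hzero : qExpansion 1
        ((G₁ : ℍ → ℂ) * (G₁ : ℍ → ℂ) - (G₂ : ℍ → ℂ) * (thetaFun * thetaFun)) = 0 := by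
      rw [qExpansion_sub (nG₁.mul nG₁).analytic (nG₂.mul (nΘ.mul nΘ)).analytic, hL, hR, hG₁, hG₂,
        hqF₁, hqF₂, map_mul, map_mul, hσΘ]
      ring
    have := hnice.eq_zero hzero
    rw [pow_two, pow_two]
    exact sub_eq_zero.mp this
  -- the quotient
  obtain ⟨h₀, hh₀, hmul⟩ := exists_mdiff_div nG₁.hol nG₂.hol thetaFun_mdifferentiable
    thetaFun_ne_zero hsq
  have hsq' : h₀ ^ 2 = (G₂ : ℍ → ℂ) :=
    sq_eq_of_mul_eq nG₂.hol thetaFun_mdifferentiable hh₀ thetaFun_ne_zero hsq hmul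
  -- invariance
  have hinv : ∀ γ ∈ Gamma1 M, h₀ ∣[(1 : ℤ)] γ = h₀ := by
    intro γ hγ
    have hmd : MDiff (h₀ ∣[(1 : ℤ)] γ) := hh₀.slash 1 (γ : GL (Fin 2) ℝ)
    apply eq_of_mul_eq_mul hmd hh₀ thetaFun_mdifferentiable thetaFun_ne_zero
    have h1 : (h₀ * thetaFun) ∣[(1 : ℤ) + 1] γ = h₀ ∣[(1 : ℤ)] γ * thetaFun ∣[(1 : ℤ)] γ :=
      ModularForm.mul_slash_SL2 1 1 γ h₀ thetaFun
    rw [thetaFun_slash_of_mem h4 hγ] at h1
    rw [← h1, hmul]
    have h2 : (G₁ : ℍ → ℂ) ∣[(2 : ℤ)] (γ : GL (Fin 2) ℝ) = G₁ :=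
      SlashInvariantForm.slash_action_eqn G₁ _ (Subgroup.mem_map_of_mem _ hγ)
    exact h2
  -- the bound
  obtain ⟨C, hC⟩ := CuspFormClass.exists_bound G₂
  have hb : ∀ z : ℍ, ‖h₀ z‖ ^ 2 * z.im ≤ C := by
    intro z
    have h1 := hC z
    have h2 : ‖h₀ z‖ ^ 2 = ‖G₂ z‖ := by
      rw [← norm_pow]
      exact congrArg norm (congrFun hsq' z)
    have h3 : z.im ^ (((2 : ℤ) : ℝ) / 2) = z.im := by
      norm_num
    rw [h3] at h1
    rw [h2]
    rw [le_div_iff₀ z.im_pos] at h1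
    exact h1
  -- the cusp form
  let h : CuspForm (Gamma1 M) 1 :=
    { toFun := h₀
      slash_action_eq' := by
        intro γ hγ
        obtain ⟨γ', hγ', rfl⟩ := Subgroup.mem_map.mp hγ
        exact hinv γ' hγ'
      holo' := hh₀
      zero_at_cusps' := by
        intro c hc
        have hc' : IsCusp c 𝒮ℒ := hc.mono (Subgroup.map_le_range _ _)
        rw [OnePoint.isZeroAt_iff_forall_SL2Z hc']
        intro γ _
        exact isZeroAtImInfty_slash_of_sq_bound h₀ C hb γ }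
  have hcoe : (h : ℍ → ℂ) = h₀ := rfl
  refine ⟨h, ?_⟩
  have hhA : AnalyticAt ℂ (cuspFunction 1 (h : ℍ → ℂ)) 0 := analyticAt_cusp h
  have e1 : qExpansion 1 (h : ℍ → ℂ) * qExpansion 1 thetaFun = qExpansion 1 (G₁ : ℍ → ℂ) := by
    rw [← qExpansion_mul hhA hΘA, hcoe, hmul]
  rw [hG₁, hqF₁, map_mul, hσΘ] at e1
  exact mul_right_cancel₀ hΘne e1

end Fermat.Agent.S48.Conj
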